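import Mathlib
import Fermat.Agent.S59.H649.H90
import Fermat.Agent.S59.H649.KummerCore

/-!
# Row S59, cell NMP, leaf SEL / VALFIN: auxiliary lemmas (helper649)

* `exists_natCast_pow_mem_h649` : a finite quotient `A ⧸ J` of a local ring with `p ∈ 𝔪` has
  `p ^ n ∈ J` for some `n ≥ 1`;
* `exists_maximalIdeal_pow_le_h649` : `𝔪 ^ N ≤ J` for some `N`;
* `isUnit_natCast_of_coprime_h649` : integers prime to `p` are units;
* `exists_kummer_gen_h649` : Hilbert 90 for the twisted cocycle `γ ↦ Λ (c γ)`;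
* `zmodChar_h649` : the character `x ↦ ζ ^ x.val` of `ℤ/m`.

Mathlib + `S59/H649/{H90, KummerCore}` only.
-/

set_option autoImplicit false
set_option linter.style.haveILetI false
set_option linter.unusedSectionVars false
set_option linter.unusedVariables false

namespace Fermat.Agent.S59.NMP.H649

open IsLocalRing

section Local

variable {A : Type*} [CommRing A] [IsLocalRing A]

theorem exists_natCast_pow_mem_h649 {p : ℕ} (hpm : (p : A) ∈ maximalIdeal A) (J : Ideal A)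
    [Finite (A ⧸ J)] : ∃ n : ℕ, 0 < n ∧ ((p ^ n : ℕ) : A) ∈ J := by
  obtain ⟨x, y, hxy, hf⟩ := Finite.exists_ne_map_eq_of_infinite
    (fun k : ℕ => (Ideal.Quotient.mk J ((p : A) ^ k) : A ⧸ J))
  have key : ∀ x y : ℕ, x < y →
      (Ideal.Quotient.mk J ((p : A) ^ x) : A ⧸ J) = Ideal.Quotient.mk J ((p : A) ^ y) →
      (p : A) ^ x ∈ J := by
    intro x y hlt h
    have h1 : (p : A) ^ x - (p : A) ^ y ∈ J := by
      rw [← Ideal.Quotient.eq_zero_iff_mem, map_sub, h, sub_self]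
    have h2 : (p : A) ^ (y - x) ∈ nonunits A := by
      have : (p : A) ^ (y - x) ∈ maximalIdeal A :=
        Ideal.pow_mem_of_mem _ hpm _ (Nat.sub_pos_of_lt hlt)
      exact (mem_maximalIdeal _).mp this
    obtain ⟨u, hu⟩ := isUnit_one_sub_self_of_mem_nonunits _ h2
    have h3 : (p : A) ^ x - (p : A) ^ y = (p : A) ^ x * (1 - (p : A) ^ (y - x)) := by
      rw [mul_sub, mul_one, ← pow_add, Nat.add_sub_cancel' hlt.le]
    rw [h3, ← hu] at h1
    have := J.mul_mem_right (↑u⁻¹ : A) h1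
    rwa [mul_assoc, Units.mul_inv, mul_one] at this
  have hx : ∃ k : ℕ, (p : A) ^ k ∈ J := by
    rcases lt_or_gt_of_ne hxy with h | h
    · exact ⟨x, key x y h hf⟩
    · exact ⟨y, key y x h hf.symm⟩
  obtain ⟨k, hk⟩ := hx
  refine ⟨k + 1, Nat.succ_pos k, ?_⟩
  rw [Nat.cast_pow, pow_succ]
  exact J.mul_mem_right _ hk

theorem exists_maximalIdeal_pow_le_h649 (J : Ideal A) [Finite (A ⧸ J)] (hJ : J ≠ ⊤) :
    ∃ N : ℕ, maximalIdeal A ^ N ≤ J := by
  haveI : Nontrivial (A ⧸ J) := Ideal.Quotient.nontrivial_iff.mpr hJ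
  haveI : IsLocalRing (A ⧸ J) :=
    IsLocalRing.of_surjective' (Ideal.Quotient.mk J) Ideal.Quotient.mk_surjective
  have hnil : IsNilpotent (maximalIdeal (A ⧸ J)) := by
    have h := IsArtinianRing.isNilpotent_jacobson_bot (R := A ⧸ J)
    rwa [jacobson_eq_maximalIdeal ⊥ bot_ne_top] at h
  obtain ⟨N, hN⟩ := hnil
  refine ⟨N, fun x hx => ?_⟩
  have h1 : Ideal.Quotient.mk J x ∈ (maximalIdeal A ^ N).map (Ideal.Quotient.mk J) :=
    Ideal.mem_map_of_mem _ hx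
  have h2 : (maximalIdeal A).map (Ideal.Quotient.mk J) ≤ maximalIdeal (A ⧸ J) := by
    rw [Ideal.map_le_iff_le_comap]
    intro a ha
    rw [Ideal.mem_comap, mem_maximalIdeal, mem_nonunits_iff]
    intro hu
    have ha' : ¬ IsUnit a := (mem_maximalIdeal a).mp ha
    -- a unit modulo `J` is a unit in the local ring `A`
    apply ha'
    by_contra hna
    have h3 : a ∈ maximalIdeal A := (mem_maximalIdeal a).mpr hna
    obtain ⟨w, hw⟩ := hu.exists_right_inv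
    obtain ⟨w₀, rfl⟩ := Ideal.Quotient.mk_surjective w
    have h4 : a * w₀ - 1 ∈ J := by
      rw [← Ideal.Quotient.eq_zero_iff_mem, map_sub, map_mul, hw, map_one, sub_self]
    have h5 : J ≤ maximalIdeal A := le_maximalIdeal hJ
    have h6 : (1 : A) ∈ maximalIdeal A := by
      have := (maximalIdeal A).sub_mem ((maximalIdeal A).mul_mem_right w₀ h3) (h5 h4)
      rwa [sub_sub_cancel] at this
    exact (Ideal.ne_top_iff_one _).mp (maximalIdeal.isMaximal A).ne_top h6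
  rw [Ideal.map_pow] at h1
  have h7 := Ideal.pow_right_mono h2 N h1
  rw [hN] at h7
  exact Ideal.Quotient.eq_zero_iff_mem.mp h7

theorem isUnit_natCast_of_coprime_h649 {p a : ℕ} (hpm : (p : A) ∈ maximalIdeal A)
    (h : a.Coprime p) : IsUnit (a : A) := by
  by_contra hna
  have h1 : (a : A) ∈ maximalIdeal A := (mem_maximalIdeal _).mpr hna
  have h2 : IsCoprime (a : ℤ) (p : ℤ) := Nat.Coprime.isCoprime h
  obtain ⟨x, y, hxy⟩ := h2
  have h3 := congrArg (Int.cast : ℤ → A) hxy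
  rw [Int.cast_add, Int.cast_mul, Int.cast_mul, Int.cast_natCast, Int.cast_natCast,
    Int.cast_one] at h3
  have h4 : (1 : A) ∈ maximalIdeal A := by
    rw [← h3]
    exact (maximalIdeal A).add_mem ((maximalIdeal A).mul_mem_left _ h1)
      ((maximalIdeal A).mul_mem_left _ hpm)
  exact (Ideal.ne_top_iff_one _).mp (maximalIdeal.isMaximal A).ne_top h4

end Local

/-- **Kummer generators** of the twisted cocycles `γ ↦ Λ (c γ)`. -/
theorem exists_kummer_gen_h649 {K Ω : Type*} [Field K] [Field Ω] [Algebra K Ω] [IsGalois K Ω]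
    (H : Subgroup (Ω ≃ₐ[K] Ω)) {R : Type*} [CommRing R] (m : ℕ) (hm : (m : R) = 0)
    (e : (Ω ≃ₐ[K] Ω) → ℕ) (he : ∀ γ, ∀ μ : Ω, μ ^ m = 1 → γ μ = μ ^ (e γ))
    (c : (Ω ≃ₐ[K] Ω) → R)
    (hc : ∀ γ ∈ H, ∀ γ' ∈ H, c (γ * γ') = (e γ : R) * c γ' + c γ)
    (E : IntermediateField K Ω) [FiniteDimensional K E]
    (hlev : ∀ τ ∈ H, (∀ x ∈ E, τ x = x) → c τ = 0)
    (Λ : R → Ω) (hΛ0 : Λ 0 = 1) (hΛ : ∀ s t, Λ (s + t) = Λ s * Λ t) :
    ∃ y : Ω, y ≠ 0 ∧ ∀ γ ∈ H, γ y = Λ (c γ) * y := by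
  have hne := Fermat.Agent.S59.H649.charFun_ne_zero Λ hΛ0 hΛ
  have hpow := Fermat.Agent.S59.H649.charFun_pow_eq_one Λ hΛ0 hΛ hm
  let f : (Ω ≃ₐ[K] Ω) → Ω := fun γ => Λ (c γ)
  have hf0 : ∀ γ ∈ H, f γ ≠ 0 := fun γ _ => hne _
  have hfc : ∀ γ ∈ H, ∀ γ' ∈ H, f (γ * γ') = f γ * γ (f γ') := by
    intro γ hγ γ' hγ'
    show Λ (c (γ * γ')) = Λ (c γ) * γ (Λ (c γ'))
    rw [hc γ hγ γ' hγ', he γ _ (hpow _), ← Fermat.Agent.S59.H649.charFun_nsmul Λ hΛ0 hΛ,
      mul_comm (Λ (c γ)), ← hΛ]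
  have hflev : ∀ γ ∈ H, ∀ τ ∈ H, (∀ x ∈ E, τ x = x) → f (γ * τ) = f γ := by
    intro γ hγ τ hτ hfix
    rw [hfc γ hγ τ hτ]
    show f γ * γ (Λ (c τ)) = f γ
    rw [hlev τ hτ hfix, hΛ0, map_one, mul_one]
  exact Fermat.Agent.S59.H649.hilbert90_subgroup H f hf0 hfc E hflev

section ZModChar

variable {M : Type*} [CommGroup M] {m : ℕ} [NeZero m]

/-- the character `x ↦ ζ ^ x.val` of `ℤ/m` attached to `ζ` with `ζ ^ m = 1` -/
noncomputable def zmodChar_h649 (ζ : M) (hζ : ζ ^ m = 1) : Multiplicative (ZMod m) →* M where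
  toFun x := ζ ^ (Multiplicative.toAdd x).val
  map_one' := by
    show ζ ^ (0 : ZMod m).val = 1
    rw [ZMod.val_zero, pow_zero]
  map_mul' x y := by
    show ζ ^ (Multiplicative.toAdd x + Multiplicative.toAdd y).val = _
    rw [ZMod.val_add, ← pow_eq_pow_mod _ hζ, pow_add]

theorem zmodChar_apply_h649 (ζ : M) (hζ : ζ ^ m = 1) (x : ZMod m) :
    zmodChar_h649 ζ hζ (Multiplicative.ofAdd x) = ζ ^ x.val := rfl

end ZModChar

end Fermat.Agent.S59.NMP.H649
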