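import Fermat.Agent.A2.IF.H429.Inertia

/-!
# Row S59, cell NMP, leaf SEL / VALFIN: the valuation component of a Kummer family (helper649)

`P` a valuation subring of `ℚ̄` over `p`, `I = I_P`, `G` a finite abelian group killed by `p ^ n`,
`c : Gal → G` a map such that for every character `Λ` of `G` the function `τ ↦ Λ (c τ)` on `I` has
a Kummer generator `y_Λ ≠ 0` (`τ y = Λ (c τ) · y` for `τ ∈ I`).  Then `y_Λ ^ (p ^ n)` is fixed by
`I`, so `v(y_Λ) ^ (p ^ n) = v(p) ^ k` (the inertia field is unramified), and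
`Λ ↦ ζ ^ k` is a character of the character group of `G`: by finite duality it is the evaluation
at one element `v ∈ G`, THE VALUATION COMPONENT.  `Λ v = 1` iff `τ ↦ Λ (c τ)` is the Kummer
character of a `P`-unit.
-/

set_option autoImplicit false
set_option linter.style.haveILetI false
set_option linter.unusedSectionVars false
set_option linter.unusedVariables false

namespace Fermat.Agent.S59.NMP.H649

/-- `ℚ̄` -/
local notation "Qb" => AlgebraicClosure ℚ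

/-- `Gal(ℚ̄/ℚ)` -/
local notation "GQ" => (AlgebraicClosure ℚ ≃ₐ[ℚ] AlgebraicClosure ℚ)

variable (P : ValuationSubring Qb)

/-- the valuation class of `y` at level `p ^ n`: `v(y) ^ (p ^ n) = v(p) ^ k`, `w = ζ ^ k` -/
def KVal (p n : ℕ) (ζ : Qbˣ) (y : Qb) (w : Qbˣ) : Prop :=
  ∃ k : ℤ, P.valuation (y ^ p ^ n / (p : Qb) ^ k) = 1 ∧ w = ζ ^ k

variable {P} {p n : ℕ} {ζ : Qbˣ}

theorem natCast_ne_zero_h649 (hp : p.Prime) : ((p : ℕ) : Qb) ≠ 0 :=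
  Nat.cast_ne_zero.mpr hp.ne_zero

theorem valuation_p_ne_zero_h649 (hp : p.Prime) : P.valuation ((p : ℕ) : Qb) ≠ 0 :=
  (Valuation.ne_zero_iff _).mpr (natCast_ne_zero_h649 hp)

theorem valuation_eq_zpow_h649 (hp : p.Prime) {x : Qb} {k : ℤ}
    (h : P.valuation (x / (p : Qb) ^ k) = 1) : P.valuation x = P.valuation (p : Qb) ^ k := by
  rw [map_div₀, map_zpow₀] at h
  exact (div_eq_one_iff_eq (zpow_ne_zero k (valuation_p_ne_zero_h649 hp))).mp h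

theorem zpow_valuation_injective_h649 (hp : p.Prime) (hP : P.LiesOverPrime p) {k k' : ℤ}
    (h : P.valuation ((p : ℕ) : Qb) ^ k = P.valuation ((p : ℕ) : Qb) ^ k') : k = k' := by
  have h1 : P.valuation ((p : ℕ) : Qb) < 1 := (P.mem_nonunits_iff).mp hP
  have h0 : 0 < P.valuation ((p : ℕ) : Qb) := zero_lt_iff.mpr (valuation_p_ne_zero_h649 hp)
  exact zpow_right_injective₀ h0 h1.ne h

theorem KVal.unique (hp : p.Prime) (hP : P.LiesOverPrime p) {y : Qb} {w w' : Qbˣ}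
    (h : KVal P p n ζ y w) (h' : KVal P p n ζ y w') : w = w' := by
  obtain ⟨k, hk, rfl⟩ := h
  obtain ⟨k', hk', rfl⟩ := h'
  have e := (valuation_eq_zpow_h649 hp hk).symm.trans (valuation_eq_zpow_h649 hp hk')
  rw [zpow_valuation_injective_h649 hp hP e]

theorem KVal.mul (hp : p.Prime) {y y' : Qb} {w w' : Qbˣ}
    (h : KVal P p n ζ y w) (h' : KVal P p n ζ y' w') : KVal P p n ζ (y * y') (w * w') := by
  obtain ⟨k, hk, rfl⟩ := h
  obtain ⟨k', hk', rfl⟩ := h'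
  refine ⟨k + k', ?_, (zpow_add ζ k k').symm⟩
  have e : (y * y') ^ p ^ n / (p : Qb) ^ (k + k') =
      (y ^ p ^ n / (p : Qb) ^ k) * (y' ^ p ^ n / (p : Qb) ^ k') := by
    rw [mul_pow, zpow_add₀ (natCast_ne_zero_h649 hp), mul_div_mul_comm]
  rw [e, map_mul, hk, hk', one_mul]

theorem KVal.of_unit {B : Qb} (hB : P.valuation B = 1) : KVal P p n ζ B 1 := by
  refine ⟨0, ?_, (zpow_zero ζ).symm⟩
  rw [zpow_zero, div_one, map_pow, hB, one_pow]

theorem KVal.of_fixed (hp : p.Prime) (hP : P.LiesOverPrime p) (hζ : ζ ^ p ^ n = 1) {r : Qb}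
    (hr0 : r ≠ 0) (hfix : ∀ τ ∈ P.inertiaSubgroupIn ℚ, τ r = r) : KVal P p n ζ r 1 := by
  obtain ⟨j, hj⟩ := Fermat.Agent.A2.IF.H429.exists_zpow_of_mem_inertiaField P p hp hP r
    ((Fermat.Agent.A2.IF.H429.mem_inertiaField_iff P).mpr hfix) hr0
  refine ⟨j * (p ^ n : ℕ), ?_, ?_⟩
  · have e : r ^ p ^ n / (p : Qb) ^ (j * (p ^ n : ℕ)) = (r / (p : Qb) ^ j) ^ p ^ n := by
      rw [div_pow, zpow_mul, zpow_natCast]
    rw [e, map_pow, hj, one_pow]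
  · rw [mul_comm, zpow_mul, zpow_natCast, hζ, one_zpow]

theorem KVal.exists (hp : p.Prime) (hP : P.LiesOverPrime p) (ζ : Qbˣ) {y : Qb} (hy0 : y ≠ 0)
    (hfix : ∀ τ ∈ P.inertiaSubgroupIn ℚ, τ (y ^ p ^ n) = y ^ p ^ n) :
    ∃ w : Qbˣ, KVal P p n ζ y w := by
  obtain ⟨k, hk⟩ := Fermat.Agent.A2.IF.H429.exists_zpow_of_mem_inertiaField P p hp hP (y ^ p ^ n)
    ((Fermat.Agent.A2.IF.H429.mem_inertiaField_iff P).mpr hfix) (pow_ne_zero _ hy0)
  exact ⟨ζ ^ k, k, hk, rfl⟩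

theorem KVal.exists_unit (hp : p.Prime) (hζ : IsPrimitiveRoot ζ (p ^ n)) {y : Qb}
    (h : KVal P p n ζ y 1) : ∃ j : ℤ, P.valuation (y / (p : Qb) ^ j) = 1 := by
  obtain ⟨k, hk, hk1⟩ := h
  have hdvd : ((p ^ n : ℕ) : ℤ) ∣ k := (hζ.zpow_eq_one_iff_dvd k).mp hk1.symm
  obtain ⟨j, rfl⟩ := hdvd
  refine ⟨j, ?_⟩
  have e : y ^ p ^ n / (p : Qb) ^ (((p ^ n : ℕ) : ℤ) * j) = (y / (p : Qb) ^ j) ^ p ^ n := by
    rw [div_pow, mul_comm, zpow_mul, zpow_natCast]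
  rw [e, map_pow] at hk
  exact (pow_eq_one_iff_left (pow_ne_zero n hp.ne_zero)).mp hk

section Component

variable {G : Type*} [AddCommGroup G] [Finite G]

/-- `Λ` is the Kummer character of `y` on the inertia group -/
def IsGen (P : ValuationSubring Qb) (c : GQ → G) (Λ : Multiplicative G →* Qbˣ) (y : Qb) : Prop :=
  y ≠ 0 ∧ ∀ τ ∈ P.inertiaSubgroupIn ℚ, τ y = ((Λ (Multiplicative.ofAdd (c τ)) : Qbˣ) : Qb) * y

theorem IsGen.mul {c : GQ → G} {Λ Λ' : Multiplicative G →* Qbˣ} {y y' : Qb}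
    (h : IsGen P c Λ y) (h' : IsGen P c Λ' y') : IsGen P c (Λ * Λ') (y * y') := by
  refine ⟨mul_ne_zero h.1 h'.1, fun τ hτ => ?_⟩
  rw [map_mul, h.2 τ hτ, h'.2 τ hτ, MonoidHom.mul_apply, Units.val_mul]
  ring

theorem IsGen.one (c : GQ → G) : IsGen P c 1 1 := by
  refine ⟨one_ne_zero, fun τ _ => ?_⟩
  rw [map_one, MonoidHom.one_apply, Units.val_one, one_mul]

theorem IsGen.div_fixed {c : GQ → G} {Λ : Multiplicative G →* Qbˣ} {y y' : Qb}
    (h : IsGen P c Λ y) (h' : IsGen P c Λ y') :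
    ∀ τ ∈ P.inertiaSubgroupIn ℚ, τ (y' / y) = y' / y := by
  intro τ hτ
  rw [map_div₀, h.2 τ hτ, h'.2 τ hτ]
  exact mul_div_mul_left _ _ (Units.ne_zero _)

theorem IsGen.pow_fixed (hG : ∀ g : G, (p ^ n) • g = 0) {c : GQ → G}
    {Λ : Multiplicative G →* Qbˣ} {y : Qb} (h : IsGen P c Λ y) :
    ∀ τ ∈ P.inertiaSubgroupIn ℚ, τ (y ^ p ^ n) = y ^ p ^ n := by
  intro τ hτ
  rw [map_pow, h.2 τ hτ, mul_pow, ← Units.val_pow_eq_pow_val, ← map_pow]
  have : (Multiplicative.ofAdd (c τ)) ^ p ^ n = 1 := by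
    rw [← ofAdd_nsmul, hG]
    rfl
  rw [this, map_one, Units.val_one, one_mul]

/-- the relation "`w` is the valuation class of `Λ`" -/
def Rel (P : ValuationSubring Qb) (p n : ℕ) (ζ : Qbˣ) (c : GQ → G)
    (Λ : Multiplicative G →* Qbˣ) (w : Qbˣ) : Prop :=
  ∃ y : Qb, IsGen P c Λ y ∧ KVal P p n ζ y w

theorem Rel.unique (hp : p.Prime) (hP : P.LiesOverPrime p) (hζ : ζ ^ p ^ n = 1)
    {c : GQ → G} {Λ : Multiplicative G →* Qbˣ} {w w' : Qbˣ}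
    (h : Rel P p n ζ c Λ w) (h' : Rel P p n ζ c Λ w') : w = w' := by
  obtain ⟨y, hy, hw⟩ := h
  obtain ⟨y', hy', hw'⟩ := h'
  have hr : KVal P p n ζ (y' / y) 1 :=
    KVal.of_fixed hp hP hζ (div_ne_zero hy'.1 hy.1) (hy.div_fixed hy')
  have h2 := hr.mul hp hw
  rw [div_mul_cancel₀ _ hy.1, one_mul] at h2
  exact h2.unique hp hP hw'

/-- **The valuation component.** -/
theorem exists_valuation_component (hp : p.Prime) (hP : P.LiesOverPrime p) (n : ℕ)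
    (ζ : Qb) (hζ : IsPrimitiveRoot ζ (p ^ n)) (hG : ∀ g : G, (p ^ n) • g = 0) (c : GQ → G)
    (hgen : ∀ Λ : Multiplicative G →* Qbˣ, ∃ y : Qb, IsGen P c Λ y) :
    ∃ v : G, ∀ Λ : Multiplicative G →* Qbˣ,
      (Λ (Multiplicative.ofAdd v) = 1 ↔
        ∃ B : Qb, P.valuation B = 1 ∧ ∀ τ ∈ P.inertiaSubgroupIn ℚ,
          τ B = ((Λ (Multiplicative.ofAdd (c τ)) : Qbˣ) : Qb) * B) := by
  classical
  have hζ0 : ζ ≠ 0 := hζ.ne_zero (pow_ne_zero n hp.ne_zero)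
  let ζu : Qbˣ := Units.mk0 ζ hζ0
  have hζu : IsPrimitiveRoot ζu (p ^ n) := by
    have : IsPrimitiveRoot ((ζu : Qbˣ) : Qb) (p ^ n) := hζ
    exact IsPrimitiveRoot.coe_units_iff.mp this
  have hζu1 : ζu ^ p ^ n = 1 := hζu.pow_eq_one
  have hex : ∀ Λ : Multiplicative G →* Qbˣ, ∃ w : Qbˣ, Rel P p n ζu c Λ w := by
    intro Λ
    obtain ⟨y, hy⟩ := hgen Λ
    obtain ⟨w, hw⟩ := KVal.exists hp hP ζu hy.1 (hy.pow_fixed hG)
    exact ⟨w, y, hy, hw⟩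
  choose φ hφ using hex
  have hφ_one : φ 1 = 1 :=
    (hφ 1).unique hp hP hζu1 ⟨1, IsGen.one c, KVal.of_unit (by rw [map_one])⟩
  have hφ_mul : ∀ Λ Λ', φ (Λ * Λ') = φ Λ * φ Λ' := by
    intro Λ Λ'
    obtain ⟨y, hy, hw⟩ := hφ Λ
    obtain ⟨y', hy', hw'⟩ := hφ Λ'
    exact (hφ (Λ * Λ')).unique hp hP hζu1 ⟨y * y', hy.mul hy', hw.mul hp hw'⟩
  let Φ : (Multiplicative G →* Qbˣ) →* Qbˣ :=
    { toFun := φ
      map_one' := hφ_one
      map_mul' := hφ_mul }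
  haveI : NeZero ((Monoid.exponent (Multiplicative G) : ℕ) : ℚ) :=
    ⟨Nat.cast_ne_zero.mpr Monoid.exponent_ne_zero_of_finite⟩
  let g : Multiplicative G := CommGroup.monoidHomMonoidHomEquiv (Multiplicative G) Qb Φ
  have hg : ∀ Λ : Multiplicative G →* Qbˣ, Λ g = Φ Λ := fun Λ =>
    CommGroup.apply_monoidHomMonoidHomEquiv (G := Multiplicative G) (M := Qb) Λ Φ
  refine ⟨Multiplicative.toAdd g, fun Λ => ?_⟩
  have hΛg : Λ (Multiplicative.ofAdd (Multiplicative.toAdd g)) = φ Λ := hg Λ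
  rw [hΛg]
  constructor
  · intro h1
    obtain ⟨y, hy, hw⟩ := hφ Λ
    rw [h1] at hw
    obtain ⟨j, hj⟩ := hw.exists_unit hp hζu
    refine ⟨y / (p : Qb) ^ j, hj, fun τ hτ => ?_⟩
    rw [map_div₀, hy.2 τ hτ, map_zpow₀, map_natCast, mul_div_assoc]
  · rintro ⟨B, hB, hBτ⟩
    have hB0 : B ≠ 0 := by
      intro h
      rw [h, map_zero] at hB
      exact zero_ne_one hB
    exact (hφ Λ).unique hp hP hζu1 ⟨B, ⟨hB0, hBτ⟩, KVal.of_unit hB⟩

end Component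

end Fermat.Agent.S59.NMP.H649
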