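import Fermat.Agent.S59.NMP.H134.SelSpec
import Fermat.Agent.S59.NMP.H649.ValComp
import Fermat.Agent.S59.NMP.H649.ValFinAux
import Fermat.Agent.S59.H649.TresStrict

/-!
# Row S59, cell NMP, leaf SEL, sub-leaf VALFIN (helper649)

`valFin : NMP.H134.ValFinStatement`: for an ordinary representation `ρ` over a local ring `A` with
cyclotomic determinant, `σ ∈ D_P` acting on `V / L` by `z`, and an ideal `J` of finite index,
there is `v ∈ A` with `(z² − 1) v ∈ J` such that every level `I ⊇ J` containing `v` is peu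
ramifié at `P`.

`v` = the valuation component (`ValComp.lean`) of the family of Kummer characters
`τ ↦ Λ (C_τ)`, `Λ` a character of `A / J`, `C` the upper right matrix entry; `(X − a Z) v ∈ J` by
the Kummer computation `S59.H649.kummer_core_h649` (conjugation by `σ` preserves the valuation),
and `X Z = det ≡ a` modulo `pⁿ`.
-/

set_option autoImplicit false
set_option linter.style.haveILetI false
set_option linter.unusedSectionVars false
set_option linter.unusedVariables false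

open scoped TensorProduct

namespace Fermat.Agent.S59.NMP.H649

open Fermat.Agent.S59.H649 IsLocalRing

attribute [local instance] Fermat.Agent.S55.Bridge.isGalois_Qbar

section Matrix

variable {A : Type*} [CommRing A] {V : Type*} [AddCommGroup V] [Module A V]
  (b : Module.Basis (Fin 2) A V)

/-- `g m - m` for an ordinary element acting trivially on the quotient -/
theorem apply_sub_eq_h649 {g : V →ₗ[A] V} (hg : g (b 0) ∈ Submodule.span A {b 0})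
    (hZ : cZ b g = 1) (m : V) :
    g m - m = ((cX b g - 1) * b.repr m 0 + cC b g * b.repr m 1) • b 0 := by
  have hm := b.sum_repr m
  rw [Fin.sum_univ_two] at hm
  have h1 : g m = b.repr m 0 • (cX b g • b 0) + b.repr m 1 • (cC b g • b 0 + b 1) := by
    conv_lhs => rw [← hm]
    rw [map_add, map_smul, map_smul, apply_b0 b hg, apply_b1 b g, hZ, one_smul]
  rw [h1]
  have h3 : ∀ α β : A, α • (cX b g • b 0) + β • (cC b g • b 0 + b 1) - (α • b 0 + β • b 1) =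
      ((cX b g - 1) * α + cC b g * β) • b 0 := by
    intro α β
    module
  have h4 := h3 (b.repr m 0) (b.repr m 1)
  rw [hm] at h4
  exact h4

end Matrix

/-- **Core of VALFIN**: the valuation component at the level `J`. -/
theorem valFin_core_h649 {p : ℕ} [Fact p.Prime] {A : Type} [CommRing A] [IsLocalRing A]
    (ρ : GaloisRepAdic A) (hdet : ρ.DetIsCyclotomic p) (P : ValuationSubring Qb)
    (hP : P.LiesOverPrime p)
    (b : Module.Basis (Fin 2) A ρ.V) (hL : IsOrdLineAt ρ P (Submodule.span A {b 0}))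
    (J : Ideal A) [Finite (A ⧸ J)] (hJ : J ≠ ⊤)
    (n : ℕ) (hn : 0 < n) (hpn : ((p ^ n : ℕ) : A) ∈ J) (ζ : Qb)
    (hζ : IsPrimitiveRoot ζ (p ^ n)) :
    ∃ v : A,
      (∀ σ ∈ P.decompositionSubgroup ℚ, (cZ b (ρ.ρ σ) ^ 2 - 1) * v ∈ J) ∧
      (∀ Λ : Multiplicative (A ⧸ J) →* Qbˣ,
        Λ (Multiplicative.ofAdd (Ideal.Quotient.mk J v)) = 1 →
        ∃ B : Qb, P.valuation B = 1 ∧ ∀ τ ∈ P.inertiaSubgroupIn ℚ,
          τ B = ((Λ (Multiplicative.ofAdd (Ideal.Quotient.mk J (cC b (ρ.ρ τ)))) : Qbˣ) : Qb)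
            * B) := by
  classical
  have hp : p.Prime := Fact.out
  haveI : NeZero p := ⟨hp.ne_zero⟩
  haveI : NeZero (p ^ n) := ⟨pow_ne_zero _ hp.ne_zero⟩
  obtain ⟨N, hN⟩ := exists_maximalIdeal_pow_le_h649 J hJ
  -- the ordinary matrices
  have hstab : ∀ τ ∈ P.decompositionSubgroup ℚ, ρ.ρ τ (b 0) ∈ Submodule.span A {b 0} :=
    fun τ hτ => hL.stable τ hτ _ (Submodule.mem_span_singleton_self _)
  have hID : ∀ γ ∈ P.inertiaSubgroupIn ℚ, γ ∈ P.decompositionSubgroup ℚ :=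
    fun γ hγ => Fermat.Agent.A2.IF.H429.decomp_of_inertia P hγ
  have hZ1 : ∀ γ ∈ P.inertiaSubgroupIn ℚ, cZ b (ρ.ρ γ) = 1 :=
    fun γ hγ => cZ_eq_one b (hL.inertia γ hγ (b 1))
  have hXdet : ∀ γ ∈ P.inertiaSubgroupIn ℚ, LinearMap.det (ρ.ρ γ) = cX b (ρ.ρ γ) := by
    intro γ hγ
    rw [det_eq_mul b (hstab γ (hID γ hγ)), hZ1 γ hγ, mul_one]
  let mk : A →+* A ⧸ J := Ideal.Quotient.mk J
  have hmk0 : ∀ t : A, mk t = 0 ↔ t ∈ J := fun t => Ideal.Quotient.eq_zero_iff_mem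
  have hex : ∀ γ : GQ, ∃ e : ℕ, ∀ μ : Qb, μ ^ p ^ n = 1 → γ μ = μ ^ e :=
    fun γ => exists_cycExp_h649 (p ^ n) γ
  choose e he using hex
  have hm : (((p ^ n : ℕ) : ℕ) : A ⧸ J) = 0 := by
    have := (hmk0 _).mpr hpn
    rwa [map_natCast] at this
  have hX : ∀ γ ∈ P.inertiaSubgroupIn ℚ, ∀ a' : ℕ, (∀ μ : Qb, μ ^ p ^ n = 1 → γ μ = μ ^ a') →
      mk (cX b (ρ.ρ γ)) = (a' : A ⧸ J) := by
    intro γ hγ a' ha'
    have h1 := hdet.2 n γ a' ha'
    rw [hXdet γ hγ] at h1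
    have h2 : cX b (ρ.ρ γ) - (a' : A) ∈ J :=
      (Ideal.span_singleton_le_iff_mem (I := J)).mpr hpn h1
    have h3 := (hmk0 _).mpr h2
    rw [map_sub, map_natCast, sub_eq_zero] at h3
    exact h3
  let c : GQ → A ⧸ J := fun γ => mk (cC b (ρ.ρ γ))
  have hc : ∀ γ ∈ P.inertiaSubgroupIn ℚ, ∀ γ' ∈ P.inertiaSubgroupIn ℚ,
      c (γ * γ') = (e γ : A ⧸ J) * c γ' + c γ := by
    intro γ hγ γ' hγ'
    show mk (cC b (ρ.ρ (γ * γ'))) = (e γ : A ⧸ J) * mk (cC b (ρ.ρ γ')) + mk (cC b (ρ.ρ γ))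
    rw [map_mul, cC_mul b (hstab γ (hID γ hγ)), hZ1 γ' hγ', mul_one, map_add, map_mul,
      hX γ hγ (e γ) (he γ)]
  obtain ⟨E, hEfin, hE⟩ := ρ.isAdicContinuous N
  haveI : FiniteDimensional ℚ E := hEfin
  have hlev : ∀ τ ∈ P.inertiaSubgroupIn ℚ, (∀ x ∈ E, τ x = x) → c τ = 0 := by
    intro τ _ hτ
    show mk (cC b (ρ.ρ τ)) = 0
    rw [hmk0]
    apply hN
    have h1 := repr_mem_of_mem_smul_top b _ (hE τ hτ (b 1)) 0
    rw [map_sub, Finsupp.sub_apply, Module.Basis.repr_self, Finsupp.single_apply,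
      if_neg (by decide), sub_zero] at h1
    exact h1
  -- characters as functions
  have hf0 : ∀ Λ : Multiplicative (A ⧸ J) →* Qbˣ,
      ((Λ (Multiplicative.ofAdd (0 : A ⧸ J)) : Qbˣ) : Qb) = 1 := by
    intro Λ
    rw [ofAdd_zero, map_one, Units.val_one]
  have hfadd : ∀ (Λ : Multiplicative (A ⧸ J) →* Qbˣ) (s t : A ⧸ J),
      ((Λ (Multiplicative.ofAdd (s + t)) : Qbˣ) : Qb) =
        ((Λ (Multiplicative.ofAdd s) : Qbˣ) : Qb) * ((Λ (Multiplicative.ofAdd t) : Qbˣ) : Qb) := by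
    intro Λ s t
    rw [ofAdd_add, map_mul, Units.val_mul]
  have hG : ∀ g : A ⧸ J, (p ^ n) • g = 0 := fun g => by
    rw [nsmul_eq_mul, hm, zero_mul]
  have hgen : ∀ Λ : Multiplicative (A ⧸ J) →* Qbˣ, ∃ y : Qb, IsGen P c Λ y := by
    intro Λ
    obtain ⟨y, hy0, hy⟩ := exists_kummer_gen_h649 (K := ℚ) (Ω := Qb) (P.inertiaSubgroupIn ℚ)
      (R := A ⧸ J) (p ^ n) hm e he c hc E hlev
      (fun t => ((Λ (Multiplicative.ofAdd t) : Qbˣ) : Qb)) (hf0 Λ) (hfadd Λ)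
    exact ⟨y, hy0, hy⟩
  obtain ⟨vbar, hv⟩ := exists_valuation_component hp hP n ζ hζ hG c hgen
  obtain ⟨v, rfl⟩ := Ideal.Quotient.mk_surjective vbar
  refine ⟨v, fun σ hσ => ?_, fun Λ hΛ => (hv Λ).mp hΛ⟩
  -- the relation `(z² - 1) v ∈ J`
  have ha := he σ
  have hconj : ∀ γ ∈ P.inertiaSubgroupIn ℚ, σ * γ * σ⁻¹ ∈ P.inertiaSubgroupIn ℚ :=
    fun γ hγ => conj_mem_inertiaIn_h649 P hσ hγ
  have hcj : ∀ γ ∈ P.inertiaSubgroupIn ℚ,
      mk (cZ b (ρ.ρ σ)) * c (σ * γ * σ⁻¹) =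
        mk (cX b (ρ.ρ σ)) * c γ + (1 - (e γ : A ⧸ J)) * mk (cC b (ρ.ρ σ)) := by
    intro γ hγ
    have hγ' := hconj γ hγ
    have h1 : ρ.ρ (σ * γ * σ⁻¹) * ρ.ρ σ = ρ.ρ σ * ρ.ρ γ := by
      rw [← map_mul, ← map_mul]
      congr 1
      group
    have h2 := congrArg (cC b) h1
    rw [cC_mul b (hstab _ (hID _ hγ')), cC_mul b (hstab σ hσ), hZ1 γ hγ, mul_one] at h2
    have h3 := congrArg mk h2
    rw [RingHom.map_add, RingHom.map_add, RingHom.map_mul, RingHom.map_mul,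
      RingHom.map_mul] at h3
    have hcyc : ∀ μ : Qb, μ ^ p ^ n = 1 → (σ * γ * σ⁻¹) μ = μ ^ (e γ) := by
      intro μ hμ
      have hμ' : (σ⁻¹ μ) ^ p ^ n = 1 := by rw [← map_pow, hμ, map_one]
      show σ (γ (σ⁻¹ μ)) = μ ^ (e γ)
      rw [he γ _ hμ', map_pow]
      congr 1
      show σ (σ.symm μ) = μ
      exact σ.apply_symm_apply μ
    rw [hX _ hγ' (e γ) hcyc] at h3
    show mk (cZ b (ρ.ρ σ)) * mk (cC b (ρ.ρ (σ * γ * σ⁻¹))) =
      mk (cX b (ρ.ρ σ)) * mk (cC b (ρ.ρ γ)) + (1 - (e γ : A ⧸ J)) * mk (cC b (ρ.ρ σ))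
    linear_combination h3
  set d : A := cX b (ρ.ρ σ) - ((e σ : ℕ) : A) * cZ b (ρ.ρ σ) with hd_def
  have hdv : d * v ∈ J := by
    rw [← hmk0]
    have hsep : ∀ Λ : Multiplicative (A ⧸ J) →* Qbˣ,
        Λ (Multiplicative.ofAdd (mk (d * v))) = Λ (Multiplicative.ofAdd (0 : A ⧸ J)) := by
      intro Λ
      rw [ofAdd_zero, map_one]
      -- the character `Λ (d ·)`
      let Λd : Multiplicative (A ⧸ J) →* Qbˣ :=
        Λ.comp (AddMonoidHom.toMultiplicative (AddMonoidHom.mulLeft (mk d)))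
      have hΛd : ∀ t : A ⧸ J, Λd (Multiplicative.ofAdd t) = Λ (Multiplicative.ofAdd (mk d * t)) :=
        fun t => rfl
      have hdΛ : ∀ t : A ⧸ J,
          ((Λ (Multiplicative.ofAdd
            ((mk (cX b (ρ.ρ σ)) - ((e σ : ℕ) : A ⧸ J) * mk (cZ b (ρ.ρ σ))) * t)) : Qbˣ) : Qb) =
          ((Λd (Multiplicative.ofAdd t) : Qbˣ) : Qb) := by
        intro t
        rw [hΛd, hd_def, RingHom.map_sub, RingHom.map_mul, map_natCast]
      obtain ⟨y, hy0, hW⟩ := kummer_core_h649 (K := ℚ) (Ω := Qb) (P.inertiaSubgroupIn ℚ) σ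
        hconj (R := A ⧸ J) (p ^ n) (e σ) hm ha e he c (mk (cX b (ρ.ρ σ)))
        (mk (cZ b (ρ.ρ σ))) (mk (cC b (ρ.ρ σ))) hc E hlev hcj
        (fun t => ((Λ (Multiplicative.ofAdd t) : Qbˣ) : Qb))
        (fun t => ((Λd (Multiplicative.ofAdd t) : Qbˣ) : Qb)) (hf0 Λ) (hfadd Λ) hdΛ
      have hvW : P.valuation ((σ⁻¹ y / y) ^ (e σ) *
          ((Λ (Multiplicative.ofAdd (mk (cC b (ρ.ρ σ)))) : Qbˣ) : Qb)) = 1 := by
        have h1 : P.valuation (σ⁻¹ y) = P.valuation y :=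
          Fermat.Agent.A2.IF.H429.valuation_map_eq P (inv_mem hσ) y
        have h2 : P.valuation y ≠ 0 := (Valuation.ne_zero_iff _).mpr hy0
        have h3 : P.valuation ((Λ (Multiplicative.ofAdd (mk (cC b (ρ.ρ σ)))) : Qbˣ) : Qb) = 1 :=
          valuation_eq_one_of_pow_h649 P (pow_ne_zero n hp.ne_zero)
            (charFun_pow_eq_one (fun t => ((Λ (Multiplicative.ofAdd t) : Qbˣ) : Qb))
              (hf0 Λ) (hfadd Λ) hm _)
        rw [map_mul, map_pow, map_div₀, h1, div_self h2, one_pow, one_mul, h3]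
      have h4 := (hv Λd).mpr ⟨_, hvW, hW⟩
      rw [hΛd, ← map_mul] at h4
      exact h4
    have h5 := (CommGroup.forall_apply_eq_apply_iff (G := Multiplicative (A ⧸ J))
      (M := Qb)).mp hsep
    exact Multiplicative.ofAdd.injective h5
  -- `X Z ≡ a`, `a` a unit
  have hdetσ : cX b (ρ.ρ σ) * cZ b (ρ.ρ σ) - ((e σ : ℕ) : A) ∈ J := by
    have h1 := hdet.2 n σ (e σ) ha
    rw [det_eq_mul b (hstab σ hσ)] at h1
    exact (Ideal.span_singleton_le_iff_mem (I := J)).mpr hpn h1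
  have hcop : (e σ).Coprime p := by
    have h1 : IsPrimitiveRoot (σ ζ) (p ^ n) := hζ.map_of_injective σ.injective
    rw [ha ζ hζ.pow_eq_one] at h1
    have h2 := (hζ.pow_iff_coprime (pow_pos hp.pos n) (e σ)).mp h1
    exact (Nat.coprime_pow_right_iff hn _ _).mp h2
  obtain ⟨u, hu⟩ := isUnit_natCast_of_coprime_h649 (A := A) hdet.1 hcop
  have h6 : ((e σ : ℕ) : A) * ((cZ b (ρ.ρ σ) ^ 2 - 1) * v) ∈ J := by
    have e1 : ((e σ : ℕ) : A) * ((cZ b (ρ.ρ σ) ^ 2 - 1) * v) =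
        (cX b (ρ.ρ σ) * cZ b (ρ.ρ σ) - ((e σ : ℕ) : A)) * v - cZ b (ρ.ρ σ) * (d * v) := by
      rw [hd_def]
      ring
    rw [e1]
    exact J.sub_mem (J.mul_mem_right _ hdetσ) (J.mul_mem_left _ hdv)
  rw [← hu] at h6
  have := J.mul_mem_left (↑u⁻¹ : A) h6
  rwa [← mul_assoc, Units.inv_mul, one_mul] at this

/-- **Peu ramifié at the level `I`** from the vanishing of the characters at `v`. -/
theorem isPeuMod_of_char_h649 {p : ℕ} [Fact p.Prime] {A : Type} [CommRing A] [IsLocalRing A]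
    (ρ : GaloisRepAdic A) (hdet : ρ.DetIsCyclotomic p) (P : ValuationSubring Qb)
    (b : Module.Basis (Fin 2) A ρ.V) (hL : IsOrdLineAt ρ P (Submodule.span A {b 0}))
    (J : Ideal A) (n : ℕ) (hpn : ((p ^ n : ℕ) : A) ∈ J) (ζ : Qb)
    (hζ : IsPrimitiveRoot ζ (p ^ n)) (v : A)
    (hv : ∀ Λ : Multiplicative (A ⧸ J) →* Qbˣ,
      Λ (Multiplicative.ofAdd (Ideal.Quotient.mk J v)) = 1 →
      ∃ B : Qb, P.valuation B = 1 ∧ ∀ τ ∈ P.inertiaSubgroupIn ℚ,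
        τ B = ((Λ (Multiplicative.ofAdd (Ideal.Quotient.mk J (cC b (ρ.ρ τ)))) : Qbˣ) : Qb) * B)
    (I : Ideal A) (hJI : J ≤ I) (hvI : v ∈ I) :
    Fermat.Agent.S59.NMP.H134.IsPeuMod p ρ P I := by
  classical
  have hp : p.Prime := Fact.out
  haveI : NeZero p := ⟨hp.ne_zero⟩
  haveI : NeZero (p ^ n) := ⟨pow_ne_zero _ hp.ne_zero⟩
  refine ⟨n, ζ, hζ, hJI hpn, fun ξ m => ?_⟩
  obtain ⟨m₀, rfl⟩ := Submodule.Quotient.mk_surjective _ m
  -- the ordinary matrices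
  have hstab : ∀ τ ∈ P.decompositionSubgroup ℚ, ρ.ρ τ (b 0) ∈ Submodule.span A {b 0} :=
    fun τ hτ => hL.stable τ hτ _ (Submodule.mem_span_singleton_self _)
  have hID : ∀ γ ∈ P.inertiaSubgroupIn ℚ, γ ∈ P.decompositionSubgroup ℚ :=
    fun γ hγ => Fermat.Agent.A2.IF.H429.decomp_of_inertia P hγ
  have hZ1 : ∀ γ ∈ P.inertiaSubgroupIn ℚ, cZ b (ρ.ρ γ) = 1 :=
    fun γ hγ => cZ_eq_one b (hL.inertia γ hγ (b 1))
  have hXdet : ∀ γ ∈ P.inertiaSubgroupIn ℚ, LinearMap.det (ρ.ρ γ) = cX b (ρ.ρ γ) := by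
    intro γ hγ
    rw [det_eq_mul b (hstab γ (hID γ hγ)), hZ1 γ hγ, mul_one]
  -- the root of unity as a unit, and the character of `ℤ/pⁿ`
  have hζ0 : ζ ≠ 0 := hζ.ne_zero (pow_ne_zero n hp.ne_zero)
  let ζu : Qbˣ := Units.mk0 ζ hζ0
  have hζu1 : ζu ^ p ^ n = 1 := by
    apply Units.ext
    rw [Units.val_pow_eq_pow_val]
    exact hζ.pow_eq_one
  let χ : Multiplicative (ZMod (p ^ n)) →* Qbˣ := zmodChar_h649 ζu hζu1
  have hχ : ∀ x : ZMod (p ^ n), ((χ (Multiplicative.ofAdd x) : Qbˣ) : Qb) = ζ ^ x.val := by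
    intro x
    show ((ζu ^ x.val : Qbˣ) : Qb) = ζ ^ x.val
    rw [Units.val_pow_eq_pow_val]
    rfl
  have hχpow : ∀ x : ZMod (p ^ n), ((χ (Multiplicative.ofAdd x) : Qbˣ) : Qb) ^ p ^ n = 1 := by
    intro x
    rw [hχ, ← pow_mul, mul_comm, pow_mul, hζ.pow_eq_one, one_pow]
  -- the additive functional `t ↦ ξ (t b₀)`
  let ℓ₀ : A →+ ZMod (p ^ n) :=
    { toFun := fun t => ξ (Submodule.Quotient.mk (t • b 0))
      map_zero' := by rw [zero_smul, Submodule.Quotient.mk_zero, map_zero]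
      map_add' := fun s t => by rw [add_smul, Submodule.Quotient.mk_add, map_add] }
  have hℓ₀ : ∀ t : A, ℓ₀ t = ξ (Submodule.Quotient.mk (t • b 0)) := fun t => rfl
  have hℓ₀I : ∀ t ∈ I, ℓ₀ t = 0 := by
    intro t ht
    rw [hℓ₀]
    have : (Submodule.Quotient.mk (t • b 0) : ρ.V ⧸ (I • (⊤ : Submodule A ρ.V))) = 0 :=
      (Submodule.Quotient.mk_eq_zero _).mpr (Submodule.smul_mem_smul ht Submodule.mem_top)
    rw [this, map_zero]
  let mkA : A →+ A ⧸ J := (Ideal.Quotient.mk J).toAddMonoidHom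
  have hmkA : ∀ t : A, mkA t = Ideal.Quotient.mk J t := fun t => rfl
  have hsurj : Function.Surjective mkA := Ideal.Quotient.mk_surjective
  have hker : mkA.ker ≤ ℓ₀.ker := by
    intro t ht
    rw [AddMonoidHom.mem_ker] at ht ⊢
    exact hℓ₀I t (hJI (Ideal.Quotient.eq_zero_iff_mem.mp ht))
  let ℓ : A ⧸ J →+ ZMod (p ^ n) := AddMonoidHom.liftOfSurjective mkA hsurj ⟨ℓ₀, hker⟩
  have hℓ : ∀ t : A, ℓ (Ideal.Quotient.mk J t) = ℓ₀ t := fun t =>
    AddMonoidHom.liftOfRightInverse_comp_apply _ _ _ ⟨ℓ₀, hker⟩ t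
  -- coordinates of `m₀`
  set α : A := b.repr m₀ 0 with hα
  set β : A := b.repr m₀ 1 with hβ
  let Λβ : Multiplicative (A ⧸ J) →* Qbˣ :=
    χ.comp (AddMonoidHom.toMultiplicative
      (ℓ.comp (AddMonoidHom.mulLeft (Ideal.Quotient.mk J β))))
  have hΛβ : ∀ t : A, Λβ (Multiplicative.ofAdd (Ideal.Quotient.mk J t)) =
      χ (Multiplicative.ofAdd (ℓ₀ (β * t))) := by
    intro t
    show χ (Multiplicative.ofAdd (ℓ (Ideal.Quotient.mk J β * Ideal.Quotient.mk J t))) = _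
    rw [← map_mul, hℓ]
  have hΛβv : Λβ (Multiplicative.ofAdd (Ideal.Quotient.mk J v)) = 1 := by
    rw [hΛβ, hℓ₀I _ (I.mul_mem_left β hvI), ofAdd_zero, map_one]
  obtain ⟨B', hB', hτ'⟩ := hv Λβ hΛβv
  -- the root of unity `μ`
  set μ : Qb := ((χ (Multiplicative.ofAdd (ℓ₀ α)) : Qbˣ) : Qb) with hμ
  have hμ0 : μ ≠ 0 := Units.ne_zero _
  have hμpow : μ ^ p ^ n = 1 := hχpow _
  refine ⟨μ * B', ?_, fun τ hτ => ?_⟩
  · rw [map_mul, hB', mul_one]
    exact valuation_eq_one_of_pow_h649 P (pow_ne_zero n hp.ne_zero) hμpow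
  · obtain ⟨e, he⟩ := exists_cycExp_h649 (p ^ n) τ
    have hXe : cX b (ρ.ρ τ) - (e : A) ∈ I := by
      have h1 := hdet.2 n τ e he
      rw [hXdet τ hτ] at h1
      exact hJI ((Ideal.span_singleton_le_iff_mem (I := J)).mpr hpn h1)
    -- the value of the exponent
    have hval : ξ (ρ.levelAction I τ (Submodule.Quotient.mk m₀) - Submodule.Quotient.mk m₀) =
        e • ℓ₀ α - ℓ₀ α + ℓ₀ (β * cC b (ρ.ρ τ)) := by
      have h1 : ρ.levelAction I τ (Submodule.Quotient.mk m₀) =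
          Submodule.Quotient.mk (ρ.ρ τ m₀) := rfl
      rw [h1, ← Submodule.Quotient.mk_sub, apply_sub_eq_h649 b (hstab τ (hID τ hτ)) (hZ1 τ hτ),
        ← hℓ₀]
      have h2 : (cX b (ρ.ρ τ) - 1) * α + cC b (ρ.ρ τ) * β =
          (cX b (ρ.ρ τ) - (e : A)) * α + (e • α - α + β * cC b (ρ.ρ τ)) := by
        rw [nsmul_eq_mul]
        ring
      rw [h2, map_add, hℓ₀I _ (I.mul_mem_right α hXe), zero_add, map_add, map_sub, map_nsmul]
    rw [hval, map_mul, hτ' τ hτ, he μ hμpow]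
    have h3 : Λβ (Multiplicative.ofAdd (Ideal.Quotient.mk J (cC b (ρ.ρ τ)))) =
        χ (Multiplicative.ofAdd (ℓ₀ (β * cC b (ρ.ρ τ)))) := hΛβ _
    rw [h3, ← hχ]
    have h4 : χ (Multiplicative.ofAdd (e • ℓ₀ α - ℓ₀ α + ℓ₀ (β * cC b (ρ.ρ τ)))) =
        χ (Multiplicative.ofAdd (ℓ₀ α)) ^ e * (χ (Multiplicative.ofAdd (ℓ₀ α)))⁻¹ *
          χ (Multiplicative.ofAdd (ℓ₀ (β * cC b (ρ.ρ τ)))) := by
      rw [ofAdd_add, ofAdd_sub, ofAdd_nsmul, map_mul, map_div, map_pow, div_eq_mul_inv]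
    rw [h4, Units.val_mul, Units.val_mul, Units.val_pow_eq_pow_val, Units.val_inv_eq_inv_val,
      ← hμ]
    field_simp

/-- **VALFIN.** -/
theorem valFin : Fermat.Agent.S59.NMP.H134.ValFinStatement := by
  intro p _ hp2 A _ _ _ ρ hdet P hP L hL σ hσ z hz J hJfin
  haveI := hJfin
  obtain ⟨b, rfl⟩ := hL.basis
  by_cases hJtop : J = ⊤
  · refine ⟨0, by rw [mul_zero]; exact J.zero_mem, fun I hJI _ => ?_⟩
    refine ⟨0, 1, by rw [pow_zero]; exact IsPrimitiveRoot.one, ?_, fun ξ m => ?_⟩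
    · rw [hJtop] at hJI
      exact hJI Submodule.mem_top
    · exact ⟨1, map_one _, fun τ _ => by rw [map_one, one_pow, one_mul]⟩
  · have hp : p.Prime := Fact.out
    obtain ⟨n, hn, hpn⟩ := exists_natCast_pow_mem_h649 hdet.1 J
    haveI : NeZero ((p ^ n : ℕ) : ℚ) := ⟨Nat.cast_ne_zero.mpr (pow_ne_zero n hp.ne_zero)⟩
    obtain ⟨ζ, hζ⟩ := HasEnoughRootsOfUnity.exists_primitiveRoot Qb (p ^ n)
    obtain ⟨v, hv1, hv2⟩ := valFin_core_h649 ρ hdet P hP b hL J hJtop n hn hpn ζ hζ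
    have hz' : z = cZ b (ρ.ρ σ) := by
      have h := repr_one_of_mem_span b (hz (b 1))
      rw [map_sub, map_smul, Finsupp.sub_apply, Finsupp.smul_apply, Module.Basis.repr_self,
        Finsupp.single_eq_same, smul_eq_mul, mul_one, sub_eq_zero] at h
      exact h.symm
    refine ⟨v, by rw [hz']; exact hv1 σ hσ, fun I hJI hvI => ?_⟩
    exact isPeuMod_of_char_h649 ρ hdet P b hL J n hpn ζ hζ v hv2 I hJI hvI

end Fermat.Agent.S59.NMP.H649
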